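/-
Cluster B (helper5): the VALUE GROUP statement and the valuation ring property of the Gauss ring.

For `F = laurentBaseChange K F₀` with `F₀` generated (as a field) by rational series integral at
`A`, every nonzero `f ∈ F` is `c⁻¹ · w` with `c ∈ Kˣ` and `w` a unit of the Gauss ring
(`exists_const_mul_mem_gaussSub`).  Consequences: `f ∈ O_v ∨ f⁻¹ ∈ O_v`
(`mem_or_inv_mem_gaussSub`), and `ValueGroupAt N` for the modular function fields
(`valueGroupAt`).
-/
import Mathlib
import Fermat.Agent.MUL.Orig.Lib.GaussInt.Tame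
import Fermat.Agent.MUL.Orig.Lib.GaussInt.Interface
import Fermat.Prelude.Def_ModularCurve_X0ModL
import Fermat.Agent.MUL.S24.InvariantsFrac

set_option autoImplicit false

noncomputable section

namespace Fermat.Agent.GaussInt

open ModularCurve HahnSeries

variable {K : Type*} [Field K] (A : ValuationSubring K)

/-- The series over `A` with the same coefficients as a series over `K` all of whose
coefficients lie in `A`. -/
def liftA (P : LaurentSeries K) (h : ∀ n, P.coeff n ∈ A) : LaurentSeries A :=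
  HahnSeries.mk (fun n => ⟨P.coeff n, h n⟩) (by
    have hs : Function.support (fun n => (⟨P.coeff n, h n⟩ : A)) = P.support := by
      ext n
      simp [Subtype.ext_iff]
    rw [hs]
    exact P.isPWO_support)

@[simp] theorem liftA_coeff (P : LaurentSeries K) (h : ∀ n, P.coeff n ∈ A) (n : ℤ) :
    ((liftA A P h).coeff n : K) = P.coeff n := rfl

@[simp] theorem emb_liftA (P : LaurentSeries K) (h : ∀ n, P.coeff n ∈ A) :
    emb A (liftA A P h) = P := by
  ext n
  rfl

variable {A}

/-- NORMALISATION: a nonzero tame series is a nonzero constant times a primitive integral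
series. -/
theorem IsTame.exists_prim {P : LaurentSeries K} (hP : IsTame A P) (hP0 : P ≠ 0) :
    ∃ (p : K) (Y : LaurentSeries A), p ≠ 0 ∧ emb A Y = p⁻¹ • P ∧ red A Y ≠ 0 := by
  rcases hP with h0 | ⟨n₀, hn₀, hmax⟩
  · exact absurd h0 hP0
  have hint : ∀ n, ((P.coeff n₀)⁻¹ • P).coeff n ∈ A := by
    intro n
    rw [HahnSeries.coeff_smul, smul_eq_mul, ← A.valuation_le_one_iff, map_mul, map_inv₀]
    have hne : A.valuation (P.coeff n₀) ≠ 0 := (Valuation.ne_zero_iff _).mpr hn₀
    rw [inv_mul_le_iff₀ (zero_lt_iff.mpr hne), mul_one]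
    exact hmax n
  refine ⟨P.coeff n₀, liftA A _ hint, hn₀, emb_liftA A _ hint, ?_⟩
  intro h0
  have h1 := congrArg (fun z => z.coeff n₀) h0
  simp only [red_coeff, HahnSeries.coeff_zero] at h1
  have h2 : (liftA A _ hint).coeff n₀ = 1 := by
    apply Subtype.ext
    rw [liftA_coeff, HahnSeries.coeff_smul, smul_eq_mul, inv_mul_cancel₀ hn₀]
    rfl
  rw [h2, map_one] at h1
  exact one_ne_zero h1

variable [Algebra ℚ K]

variable (A) in
/-- The `K`-span of the rational series in `F₀` that are integral at `A`. -/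
def intSpan (F₀ : IntermediateField ℚ (LaurentSeries ℚ)) : Submodule K (LaurentSeries K) :=
  Submodule.span K (coeffEmb K '' {g | g ∈ F₀ ∧ IsIntQ A g})

theorem isIntQ_one : IsIntQ A (1 : LaurentSeries ℚ) := by
  intro n
  rw [HahnSeries.coeff_one]
  split_ifs
  · rw [map_one]; exact A.one_mem
  · rw [map_zero]; exact A.zero_mem

theorem IsIntQ.mul {g h : LaurentSeries ℚ} (hg : IsIntQ A g) (hh : IsIntQ A h) :
    IsIntQ A (g * h) := by
  intro n
  have hg' : ∀ n, (coeffEmb K g).coeff n ∈ A := hg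
  have hh' : ∀ n, (coeffEmb K h).coeff n ∈ A := hh
  have h1 : coeffEmb K g = emb A (liftA A (coeffEmb K g) hg') := (emb_liftA A _ hg').symm
  have h2 : coeffEmb K h = emb A (liftA A (coeffEmb K h) hh') := (emb_liftA A _ hh').symm
  have h3 : coeffEmb K (g * h) =
      emb A (liftA A (coeffEmb K g) hg' * liftA A (coeffEmb K h) hh') := by
    rw [map_mul, map_mul, ← h1, ← h2]
  have h4 := congrArg (fun z => z.coeff n) h3
  simp only [coeffEmb_coeff, emb_coeff] at h4
  rw [h4]
  exact Subtype.property _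

theorem IsIntQ.add {g h : LaurentSeries ℚ} (hg : IsIntQ A g) (hh : IsIntQ A h) :
    IsIntQ A (g + h) := by
  intro n
  rw [HahnSeries.coeff_add, map_add]
  exact add_mem (hg n) (hh n)

theorem IsIntQ.neg {g : LaurentSeries ℚ} (hg : IsIntQ A g) : IsIntQ A (-g) := by
  intro n
  rw [HahnSeries.coeff_neg, map_neg]
  exact neg_mem (hg n)

theorem isIntQ_intCast_single (z : ℤ) (m : ℤ) :
    IsIntQ A (HahnSeries.single m (z : ℚ)) := by
  intro n
  rw [HahnSeries.coeff_single]
  split_ifs
  · rw [map_intCast]; exact intCast_mem A z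
  · rw [map_zero]; exact A.zero_mem

section Span

variable {F₀ : IntermediateField ℚ (LaurentSeries ℚ)}

theorem coeffEmb_mem_intSpan {g : LaurentSeries ℚ} (hg : g ∈ F₀) (hint : IsIntQ A g) :
    coeffEmb K g ∈ intSpan A F₀ :=
  Submodule.subset_span ⟨g, ⟨hg, hint⟩, rfl⟩

theorem one_mem_intSpan : (1 : LaurentSeries K) ∈ intSpan A F₀ := by
  have := coeffEmb_mem_intSpan (A := A) (F₀ := F₀) (one_mem F₀) isIntQ_one
  rwa [map_one] at this

omit [Algebra ℚ K] in
theorem algebraMap_mul_eq_smul (c : K) (x : LaurentSeries K) :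
    algebraMap K (LaurentSeries K) c * x = c • x := by
  rw [algebraMap_laurentSeries_eq_single]
  exact HahnSeries.single_zero_mul_eq_smul

theorem mul_mem_intSpan {P Q : LaurentSeries K} (hP : P ∈ intSpan A F₀)
    (hQ : Q ∈ intSpan A F₀) : P * Q ∈ intSpan A F₀ := by
  unfold intSpan at hP hQ ⊢
  induction hP using Submodule.span_induction with
  | mem x hx =>
    obtain ⟨g, ⟨hg, hgi⟩, rfl⟩ := hx
    induction hQ using Submodule.span_induction with
    | mem y hy =>
      obtain ⟨h, ⟨hh, hhi⟩, rfl⟩ := hy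
      exact Submodule.subset_span ⟨g * h, ⟨mul_mem hg hh, hgi.mul hhi⟩, map_mul _ _ _⟩
    | zero => rw [mul_zero]; exact zero_mem _
    | add y z _ _ hy hz => rw [mul_add]; exact add_mem hy hz
    | smul c y _ hy =>
      have : coeffEmb K g * c • y = c • (coeffEmb K g * y) := by
        rw [← algebraMap_mul_eq_smul, ← algebraMap_mul_eq_smul]
        ring
      rw [this]
      exact Submodule.smul_mem _ c hy
  | zero => rw [zero_mul]; exact zero_mem _
  | add x y _ _ hx hy => rw [add_mul]; exact add_mem hx hy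
  | smul c x _ hx =>
    have : c • x * Q = c • (x * Q) := by
      rw [← algebraMap_mul_eq_smul, ← algebraMap_mul_eq_smul]
      ring
    rw [this]
    exact Submodule.smul_mem _ c hx

theorem intSpan_le (F₀ : IntermediateField ℚ (LaurentSeries ℚ)) {P : LaurentSeries K}
    (hP : P ∈ intSpan A F₀) : P ∈ laurentBaseChange K F₀ := by
  unfold intSpan at hP
  induction hP using Submodule.span_induction with
  | mem x hx =>
    obtain ⟨g, ⟨hg, -⟩, rfl⟩ := hx
    exact coeffEmb_mem_laurentBaseChange K hg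
  | zero => exact zero_mem _
  | add x y _ _ hx hy => exact add_mem hx hy
  | smul c x _ hx =>
    rw [← algebraMap_mul_eq_smul]
    exact mul_mem ((laurentBaseChange K F₀).algebraMap_mem c) hx

/-- Elements of `intSpan` are tame. -/
theorem isTame_of_mem_intSpan {ℓ : ℕ} (hℓ : ℓ.Prime) (hA : A.LiesOverPrime ℓ)
    {P : LaurentSeries K} (hP : P ∈ intSpan A F₀) : IsTame A P := by
  refine isTame_of_mem_span hℓ hA (Submodule.span_mono ?_ hP)
  rintro _ ⟨g, ⟨-, hgi⟩, rfl⟩
  exact ⟨g, hgi, rfl⟩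

/-- `F₀` is generated by series integral at `A`: every element is a quotient of integral
elements of `F₀`. -/
def IsIntGen (A : ValuationSubring K) (F₀ : IntermediateField ℚ (LaurentSeries ℚ)) : Prop :=
  ∀ z ∈ F₀, ∃ a b : LaurentSeries ℚ, a ∈ F₀ ∧ b ∈ F₀ ∧ IsIntQ A a ∧ IsIntQ A b ∧ b ≠ 0 ∧
    z * b = a

/-- A field generated by integral series is `IsIntGen`. -/
theorem isIntGen_adjoin (S : Set (LaurentSeries ℚ)) (hS : ∀ g ∈ S, IsIntQ A g) :
    IsIntGen A (IntermediateField.adjoin ℚ S) := by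
  intro z hz
  induction hz using IntermediateField.adjoin_induction with
  | mem x hx =>
    exact ⟨x, 1, IntermediateField.subset_adjoin ℚ S hx, one_mem _, hS x hx, isIntQ_one,
      one_ne_zero, mul_one x⟩
  | algebraMap r =>
    refine ⟨HahnSeries.single 0 (r.num : ℚ), HahnSeries.single 0 (r.den : ℚ), ?_, ?_,
      isIntQ_intCast_single _ _, ?_, ?_, ?_⟩
    · rw [← algebraMap_apply_eq_single]
      exact IntermediateField.algebraMap_mem _ _
    · rw [← algebraMap_apply_eq_single]
      exact IntermediateField.algebraMap_mem _ _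
    · have := isIntQ_intCast_single (A := A) (r.den : ℤ) 0
      simpa using this
    · intro h0
      have h1 := congrArg (fun z => z.coeff 0) h0
      simp only [HahnSeries.coeff_single_same, HahnSeries.coeff_zero] at h1
      exact r.den_ne_zero (by exact_mod_cast h1)
    · rw [algebraMap_apply_eq_single, HahnSeries.single_mul_single, zero_add]
      congr 1
      exact Rat.mul_den_eq_num r
  | add x y _ _ hx hy =>
    obtain ⟨a, b, ha, hb, hai, hbi, hb0, hab⟩ := hx
    obtain ⟨c, d, hc, hd, hci, hdi, hd0, hcd⟩ := hy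
    refine ⟨a * d + c * b, b * d, add_mem (mul_mem ha hd) (mul_mem hc hb), mul_mem hb hd,
      (hai.mul hdi).add (hci.mul hbi), hbi.mul hdi, mul_ne_zero hb0 hd0, ?_⟩
    rw [← hab, ← hcd]
    ring
  | inv x _ hx =>
    obtain ⟨a, b, ha, hb, hai, hbi, hb0, hab⟩ := hx
    by_cases hx0 : x = 0
    · exact ⟨0, 1, zero_mem _, one_mem _, fun n => by simp [A.zero_mem], isIntQ_one,
        one_ne_zero, by rw [hx0, inv_zero, zero_mul]⟩
    · have ha0 : a ≠ 0 := by
        rw [← hab]
        exact mul_ne_zero hx0 hb0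
      refine ⟨b, a, hb, ha, hbi, hai, ha0, ?_⟩
      rw [← hab]
      field_simp
  | mul x y _ _ hx hy =>
    obtain ⟨a, b, ha, hb, hai, hbi, hb0, hab⟩ := hx
    obtain ⟨c, d, hc, hd, hci, hdi, hd0, hcd⟩ := hy
    refine ⟨a * c, b * d, mul_mem ha hc, mul_mem hb hd, hai.mul hci, hbi.mul hdi,
      mul_ne_zero hb0 hd0, ?_⟩
    rw [← hab, ← hcd]
    ring

/-- Every element of the base-changed field is a quotient of two elements of `intSpan`. -/
theorem exists_frac_of_mem (hF₀ : IsIntGen A F₀) {f : LaurentSeries K}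
    (hf : f ∈ laurentBaseChange K F₀) :
    ∃ P Q : LaurentSeries K, P ∈ intSpan A F₀ ∧ Q ∈ intSpan A F₀ ∧ Q ≠ 0 ∧ f * Q = P := by
  rw [mem_laurentBaseChange_iff] at hf
  induction hf using Subfield.closure_induction with
  | mem x hx =>
    rcases hx with ⟨c, rfl⟩ | ⟨z, hz, rfl⟩
    · refine ⟨c • 1, 1, Submodule.smul_mem _ c one_mem_intSpan, one_mem_intSpan, one_ne_zero, ?_⟩
      rw [mul_one, ← algebraMap_mul_eq_smul, mul_one]
    · obtain ⟨a, b, ha, hb, hai, hbi, hb0, hab⟩ := hF₀ z hz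
      refine ⟨coeffEmb K a, coeffEmb K b, coeffEmb_mem_intSpan ha hai,
        coeffEmb_mem_intSpan hb hbi, ?_, ?_⟩
      · intro h0
        apply hb0
        exact coeffMap_injective_of_injective _ (algebraMap ℚ K).injective
          (h0.trans (map_zero _).symm)
      · rw [← map_mul, hab]
  | one => exact ⟨1, 1, one_mem_intSpan, one_mem_intSpan, one_ne_zero, mul_one 1⟩
  | add x y _ _ hx hy =>
    obtain ⟨P, Q, hP, hQ, hQ0, hPQ⟩ := hx
    obtain ⟨P', Q', hP', hQ', hQ0', hPQ'⟩ := hy
    refine ⟨P * Q' + P' * Q, Q * Q', add_mem (mul_mem_intSpan hP hQ') (mul_mem_intSpan hP' hQ),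
      mul_mem_intSpan hQ hQ', mul_ne_zero hQ0 hQ0', ?_⟩
    rw [← hPQ, ← hPQ']
    ring
  | neg x _ hx =>
    obtain ⟨P, Q, hP, hQ, hQ0, hPQ⟩ := hx
    exact ⟨-P, Q, neg_mem hP, hQ, hQ0, by rw [← hPQ, neg_mul]⟩
  | inv x _ hx =>
    obtain ⟨P, Q, hP, hQ, hQ0, hPQ⟩ := hx
    by_cases hx0 : x = 0
    · exact ⟨0, 1, zero_mem _, one_mem_intSpan, one_ne_zero, by rw [hx0, inv_zero, zero_mul]⟩
    · have hP0 : P ≠ 0 := by
        rw [← hPQ]
        exact mul_ne_zero hx0 hQ0
      refine ⟨Q, P, hQ, hP, hP0, ?_⟩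
      rw [← hPQ]
      field_simp
  | mul x y _ _ hx hy =>
    obtain ⟨P, Q, hP, hQ, hQ0, hPQ⟩ := hx
    obtain ⟨P', Q', hP', hQ', hQ0', hPQ'⟩ := hy
    refine ⟨P * P', Q * Q', mul_mem_intSpan hP hP', mul_mem_intSpan hQ hQ',
      mul_ne_zero hQ0 hQ0', ?_⟩
    rw [← hPQ, ← hPQ']
    ring

/-- VALUE GROUP: every nonzero element of `F` is a nonzero constant times a unit of the Gauss
ring. -/
theorem exists_const_mul_mem_gaussSub {ℓ : ℕ} (hℓ : ℓ.Prime) (hA : A.LiesOverPrime ℓ)
    (hF₀ : IsIntGen A F₀) {f : LaurentSeries K} (hf : f ∈ laurentBaseChange K F₀)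
    (hf0 : f ≠ 0) :
    ∃ c : K, c ≠ 0 ∧
      algebraMap K (LaurentSeries K) c * f ∈ gaussSub A (laurentBaseChange K F₀) ∧
      gaussResFun A (laurentBaseChange K F₀) (algebraMap K (LaurentSeries K) c * f) ≠ 0 := by
  obtain ⟨P, Q, hP, hQ, hQ0, hPQ⟩ := exists_frac_of_mem hF₀ hf
  have hP0 : P ≠ 0 := by
    rw [← hPQ]
    exact mul_ne_zero hf0 hQ0
  obtain ⟨p, Y, hp, hY, hYr⟩ := (isTame_of_mem_intSpan hℓ hA hP).exists_prim hP0
  obtain ⟨q, Z, hq, hZ, hZr⟩ := (isTame_of_mem_intSpan hℓ hA hQ).exists_prim hQ0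
  rw [← algebraMap_mul_eq_smul] at hY hZ
  have hYF : emb A Y ∈ laurentBaseChange K F₀ := by
    rw [hY]
    exact mul_mem ((laurentBaseChange K F₀).algebraMap_mem _) (intSpan_le F₀ hP)
  have hZF : emb A Z ∈ laurentBaseChange K F₀ := by
    rw [hZ]
    exact mul_mem ((laurentBaseChange K F₀).algebraMap_mem _) (intSpan_le F₀ hQ)
  have hpres : IsPres A (laurentBaseChange K F₀)
      (algebraMap K (LaurentSeries K) (q / p) * f) Y Z := by
    refine ⟨hYF, hZF, hZr, ?_⟩
    rw [hY, hZ, ← hPQ, map_div₀, map_inv₀, map_inv₀]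
    have h1 : algebraMap K (LaurentSeries K) p ≠ 0 := by simpa using hp
    have h2 : algebraMap K (LaurentSeries K) q ≠ 0 := by simpa using hq
    field_simp
  refine ⟨q / p, div_ne_zero hq hp, hpres.mem_gaussSub, ?_⟩
  rw [gaussResFun_eq hpres]
  exact div_ne_zero hYr hZr

/-- VALUATION RING property of the Gauss ring. -/
theorem mem_or_inv_mem_gaussSub {ℓ : ℕ} (hℓ : ℓ.Prime) (hA : A.LiesOverPrime ℓ)
    (hF₀ : IsIntGen A F₀) {f : LaurentSeries K} (hf : f ∈ laurentBaseChange K F₀) :
    f ∈ gaussSub A (laurentBaseChange K F₀) ∨ f⁻¹ ∈ gaussSub A (laurentBaseChange K F₀) := by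
  by_cases hf0 : f = 0
  · left
    rw [hf0]
    exact zero_mem _
  obtain ⟨c, hc, hmem, hres⟩ := exists_const_mul_mem_gaussSub hℓ hA hF₀ hf hf0
  have hcK : algebraMap K (LaurentSeries K) c ≠ 0 := by simpa using hc
  rcases A.mem_or_inv_mem c with hcA | hcA
  · -- `f⁻¹ = c (c f)⁻¹`
    right
    have h1 := inv_mem_gaussSub hmem hres
    have h2 := (gaussSub A (laurentBaseChange K F₀)).mul_mem
      (algebraMap_mem_gaussSub (F := laurentBaseChange K F₀) hcA) h1
    have h3 : algebraMap K (LaurentSeries K) c * (algebraMap K (LaurentSeries K) c * f)⁻¹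
        = f⁻¹ := by
      field_simp
    rwa [h3] at h2
  · left
    have h2 := (gaussSub A (laurentBaseChange K F₀)).mul_mem
      (algebraMap_mem_gaussSub (F := laurentBaseChange K F₀) hcA) hmem
    have h3 : algebraMap K (LaurentSeries K) c⁻¹ * (algebraMap K (LaurentSeries K) c * f)
        = f := by
      rw [map_inv₀]
      field_simp
    rwa [h3] at h2

end Span

/-! ### The modular function fields -/

theorem isIntQ_jq : IsIntQ A jq := by
  intro n
  have h := coeff_jqModC_eq_intCast (R := ℚ) n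
  rw [jqModC_rat] at h
  rw [h, map_intCast]
  exact intCast_mem A _

theorem isIntQ_qExpand (d : ℕ) [NeZero d] {g : LaurentSeries ℚ} (hg : IsIntQ A g) :
    IsIntQ A (qExpand ℚ d g) := by
  intro n
  by_cases hn : (d : ℤ) ∣ n
  · obtain ⟨m, rfl⟩ := hn
    rw [qExpand_coeff_mul]
    exact hg m
  · rw [qExpand_coeff_of_not_dvd d g hn, map_zero]
    exact A.zero_mem

theorem isIntGen_modularFunctionFieldFull (N : ℕ) : IsIntGen A (modularFunctionFieldFull N) := by
  refine isIntGen_adjoin _ ?_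
  rintro g ⟨d, hd, -, rfl⟩
  exact isIntQ_qExpand d isIntQ_jq

/-- `ValueGroupAt N` holds unconditionally. -/
theorem valueGroupAt (N : ℕ) [NeZero N] : ValueGroupAt N := by
  intro ℓ hℓ A hA f hf
  exact exists_const_mul_mem_gaussSub hℓ hA (isIntGen_modularFunctionFieldFull N) f.2
    (fun h => hf (Subtype.ext h))

end Fermat.Agent.GaussInt
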