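/-
Cluster B (helper5): ORTHONORMAL BASES (the LATTICE property) for the Gauss valuation ring.

`F = laurentBaseChange K F₀`, `F₀` generated by rational series integral at `A`, `A` over `ℓ`.
Every finitely generated `K`-subspace `W` of `F` has a basis `w` consisting of elements of the
Gauss ring whose residues are linearly independent over the residue field `k`
(`exists_orthonormal_series`, `exists_orthonormal`).
-/
import Mathlib
import Fermat.Agent.MUL.Orig.Lib.GaussInt.Echelon
import Fermat.Agent.MUL.Orig.Lib.GaussInt.Bundle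

set_option autoImplicit false

noncomputable section

namespace Fermat.Agent.GaussInt

open ModularCurve HahnSeries

variable {K : Type*} [Field K] [Algebra ℚ K]
variable {A : ValuationSubring K} {F₀ : IntermediateField ℚ (LaurentSeries ℚ)} {ℓ : ℕ}

/-- COMMON DENOMINATOR: finitely many elements of `F` have a common denominator in `intSpan`. -/
theorem exists_common_denominator (hF₀ : IsIntGen A F₀) (t : Finset (LaurentSeries K))
    (ht : ∀ x ∈ t, x ∈ laurentBaseChange K F₀) :
    ∃ Q : LaurentSeries K, Q ∈ intSpan A F₀ ∧ Q ≠ 0 ∧ ∀ x ∈ t, x * Q ∈ intSpan A F₀ := by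
  classical
  induction t using Finset.induction_on with
  | empty => exact ⟨1, one_mem_intSpan, one_ne_zero, by simp⟩
  | insert v t _ ih =>
    obtain ⟨Q, hQ, hQ0, hQt⟩ := ih fun x hx => ht x (Finset.mem_insert_of_mem hx)
    obtain ⟨P, Q', hP, hQ', hQ'0, hPQ⟩ := exists_frac_of_mem hF₀ (ht v (Finset.mem_insert_self _ _))
    refine ⟨Q * Q', mul_mem_intSpan hQ hQ', mul_ne_zero hQ0 hQ'0, fun x hx => ?_⟩
    rcases Finset.mem_insert.mp hx with rfl | hx
    · have : x * (Q * Q') = P * Q := by rw [← hPQ]; ring
      rw [this]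
      exact mul_mem_intSpan hP hQ
    · have : x * (Q * Q') = x * Q * Q' := by ring
      rw [this]
      exact mul_mem_intSpan (hQt x hx) hQ'

omit [Algebra ℚ K] in
theorem smul_mul_eq (c : K) (x y : LaurentSeries K) : c • x * y = c • (x * y) := by
  rw [← algebraMap_mul_eq_smul, ← algebraMap_mul_eq_smul]
  ring

/-- Right multiplication by a series as a `K`-linear map. -/
def mulRightLin (E : LaurentSeries K) : LaurentSeries K →ₗ[K] LaurentSeries K where
  toFun x := x * E
  map_add' x y := add_mul x y E
  map_smul' c x := smul_mul_eq c x E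

omit [Algebra ℚ K] in
@[simp] theorem mulRightLin_apply (E x : LaurentSeries K) : mulRightLin E x = x * E := rfl

/-- ORTHONORMAL BASIS, series form. -/
theorem exists_orthonormal_series (h : GaussHyp A F₀ ℓ) (W : Submodule K (LaurentSeries K))
    (hfg : W.FG) (hW : ∀ x ∈ W, x ∈ laurentBaseChange K F₀) :
    ∃ (s : Finset ℤ) (w : ℤ → LaurentSeries K),
      (∀ n ∈ s, w n ∈ W) ∧
      (∀ n ∈ s, w n ∈ gaussSub A (laurentBaseChange K F₀)) ∧
      Submodule.span K (w '' (s : Set ℤ)) = W ∧
      (∀ c : ℤ → IsLocalRing.ResidueField A,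
        ∑ n ∈ s, algebraMap (IsLocalRing.ResidueField A)
            (LaurentSeries (IsLocalRing.ResidueField A)) (c n) *
          gaussResFun A (laurentBaseChange K F₀) (w n) = 0 → ∀ n ∈ s, c n = 0) := by
  classical
  obtain ⟨t, ht⟩ := hfg
  have htF : ∀ x ∈ t, x ∈ laurentBaseChange K F₀ := fun x hx =>
    hW x (by rw [← ht]; exact Submodule.subset_span hx)
  obtain ⟨Q, hQ, hQ0, hQt⟩ := exists_common_denominator h.isIntGen t htF
  obtain ⟨q, Y, hq, hY, hYr⟩ := (isTame_of_mem_intSpan h.isPrime h.liesOver hQ).exists_prim hQ0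
  obtain ⟨E, hE⟩ : ∃ E : LaurentSeries K, E = emb A Y := ⟨_, rfl⟩
  have hE0 : E ≠ 0 := by
    rw [hE, hY]
    intro h0
    rw [← algebraMap_mul_eq_smul] at h0
    rcases mul_eq_zero.mp h0 with h1 | h1
    · exact inv_ne_zero hq (by simpa using h1)
    · exact hQ0 h1
  have hEF : E ∈ laurentBaseChange K F₀ := by
    rw [hE, hY, ← algebraMap_mul_eq_smul]
    exact mul_mem ((laurentBaseChange K F₀).algebraMap_mem _) (intSpan_le F₀ hQ)
  -- the subspace `V = W · E`
  set V : Submodule K (LaurentSeries K) := W.map (mulRightLin E) with hVdef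
  have hVle : V ≤ intSpan A F₀ := by
    rw [hVdef, ← ht, Submodule.map_span, Submodule.span_le]
    rintro _ ⟨x, hx, rfl⟩
    have : mulRightLin E x = q⁻¹ • (x * Q) := by
      rw [mulRightLin_apply, hE, hY, ← algebraMap_mul_eq_smul, ← algebraMap_mul_eq_smul]
      ring
    rw [this]
    exact Submodule.smul_mem _ _ (hQt x hx)
  have hVfg : V.FG := by
    rw [hVdef, ← ht, Submodule.map_span]
    exact Submodule.fg_span (Set.Finite.image _ t.finite_toSet)
  have hVtame : ∀ P ∈ V, IsTame A P := fun P hP =>
    isTame_of_mem_intSpan h.isPrime h.liesOver (hVle hP)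
  obtain ⟨s, p, hech, hspan⟩ := exists_echelon hVfg hVtame
  -- the orthonormal family
  set w : ℤ → LaurentSeries K := fun n => p n * E⁻¹ with hw
  have hwE : ∀ n, w n * E = p n := fun n => by
    rw [hw]
    simp only
    rw [mul_assoc, inv_mul_cancel₀ hE0, mul_one]
  have hwW : ∀ n ∈ s, w n ∈ W := by
    intro n hn
    obtain ⟨x, hx, hxp⟩ := hech.mem n hn
    have : w n = x := by
      rw [hw]
      simp only
      rw [← hxp, mulRightLin_apply, mul_assoc, mul_inv_cancel₀ hE0, mul_one]
    rw [this]
    exact hx
  have hpres : ∀ n (hn : n ∈ s), IsPres A (laurentBaseChange K F₀) (w n)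
      (liftA A (p n) (hech.int n hn)) Y := by
    intro n hn
    refine ⟨?_, hE ▸ hEF, hYr, ?_⟩
    · rw [emb_liftA]
      exact intSpan_le F₀ (hVle (hech.mem n hn))
    · rw [emb_liftA, ← hE]
      exact hwE n
  refine ⟨s, w, hwW, fun n hn => (hpres n hn).mem_gaussSub, ?_, ?_⟩
  · -- span
    have h1 : Submodule.span K (w '' (s : Set ℤ)) = V.map (mulRightLin E⁻¹) := by
      rw [← hspan, Submodule.map_span, ← Set.image_comp]
      rfl
    have h2 : V.map (mulRightLin E⁻¹) = W := by
      rw [hVdef, ← Submodule.map_comp]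
      have : (mulRightLin E⁻¹).comp (mulRightLin E) = LinearMap.id := by
        ext x : 1
        simp only [LinearMap.comp_apply, mulRightLin_apply, LinearMap.id_apply]
        rw [mul_assoc, mul_inv_cancel₀ hE0, mul_one]
      rw [this, Submodule.map_id]
    rw [h1, h2]
  · -- independence of the residues
    intro c hc m hm
    set L : ℤ → LaurentSeries A :=
      fun n => if hn : n ∈ s then liftA A (p n) (hech.int n hn) else 0 with hL
    have hLn : ∀ n (hn : n ∈ s), L n = liftA A (p n) (hech.int n hn) := fun n hn => by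
      simp [hL, hn]
    have hres : ∀ n ∈ s, gaussResFun A (laurentBaseChange K F₀) (w n) * red A Y =
        red A (L n) := fun n hn => by
      rw [hLn n hn]
      exact gaussResFun_mul_red (hpres n hn)
    have h3 : ∑ n ∈ s, algebraMap (IsLocalRing.ResidueField A)
        (LaurentSeries (IsLocalRing.ResidueField A)) (c n) * red A (L n) = 0 := by
      have h4 : (∑ n ∈ s, algebraMap (IsLocalRing.ResidueField A)
          (LaurentSeries (IsLocalRing.ResidueField A)) (c n) *
            gaussResFun A (laurentBaseChange K F₀) (w n)) * red A Y = 0 := by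
        rw [hc, zero_mul]
      rw [Finset.sum_mul] at h4
      rw [← h4]
      refine Finset.sum_congr rfl fun n hn => ?_
      rw [mul_assoc, hres n hn]
    have h5 := congrArg (fun z => z.coeff m) h3
    simp only [HahnSeries.coeff_sum, HahnSeries.coeff_zero] at h5
    have h6 : ∀ n ∈ s, (algebraMap (IsLocalRing.ResidueField A)
        (LaurentSeries (IsLocalRing.ResidueField A)) (c n) * red A (L n)).coeff m =
        if m = n then c n else 0 := by
      intro n hn
      rw [algebraMap_mul_eq_smul, HahnSeries.coeff_smul, red_coeff, smul_eq_mul, hLn n hn]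
      have h7 : (liftA A (p n) (hech.int n hn)).coeff m = if m = n then 1 else 0 := by
        apply Subtype.ext
        rw [liftA_coeff, hech.pivot n hn m hm]
        split_ifs <;> rfl
      rw [h7]
      split_ifs
      · rw [map_one, mul_one]
      · rw [map_zero, mul_zero]
    rw [Finset.sum_congr rfl h6, Finset.sum_ite_eq s m, if_pos hm] at h5
    exact h5

/-- The inclusion of `F` into `K((q))` as a `K`-linear map. -/
def valLin (F : IntermediateField K (LaurentSeries K)) : F →ₗ[K] LaurentSeries K where
  toFun := Subtype.val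
  map_add' _ _ := rfl
  map_smul' c f := by
    show ((c • f : F) : LaurentSeries K) = c • (f : LaurentSeries K)
    rw [← algebraMap_mul_eq_smul, Algebra.smul_def]
    rfl

omit [Algebra ℚ K] in
@[simp] theorem valLin_apply (F : IntermediateField K (LaurentSeries K)) (f : F) :
    valLin F f = (f : LaurentSeries K) := rfl

omit [Algebra ℚ K] in
theorem valLin_injective (F : IntermediateField K (LaurentSeries K)) :
    Function.Injective (valLin F) := fun _ _ h => Subtype.ext h

/-- ORTHONORMAL BASIS (the LATTICE property): every finite-dimensional `K`-subspace `W` of `F`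
is spanned by elements of the Gauss valuation ring whose residues are linearly independent
over the residue field. -/
theorem exists_orthonormal (h : GaussHyp A F₀ ℓ) (W : Submodule K (laurentBaseChange K F₀))
    (hWfd : FiniteDimensional K W) :
    ∃ (n : ℕ) (w : Fin n → laurentBaseChange K F₀),
      (∀ i, w i ∈ W) ∧ (∀ i, w i ∈ gaussValSub h) ∧
      Submodule.span K (Set.range w) = W ∧
      (∀ c : Fin n → IsLocalRing.ResidueField A,
        ∑ i, algebraMap (IsLocalRing.ResidueField A)
            (LaurentSeries (IsLocalRing.ResidueField A)) (c i) *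
          gaussResFun A (laurentBaseChange K F₀) ((w i : laurentBaseChange K F₀) :
            LaurentSeries K) = 0 → ∀ i, c i = 0) := by
  classical
  have hfg : W.FG := (Submodule.fg_iff_finiteDimensional W).mpr hWfd
  have hfg' : (W.map (valLin (laurentBaseChange K F₀))).FG := hfg.map _
  have hW' : ∀ x ∈ W.map (valLin (laurentBaseChange K F₀)), x ∈ laurentBaseChange K F₀ := by
    rintro _ ⟨f, -, rfl⟩
    exact f.2
  obtain ⟨s, w, hwW, hwO, hspan, hind⟩ := exists_orthonormal_series h _ hfg' hW'
  have hch : ∀ x : s, ∃ f : laurentBaseChange K F₀, f ∈ W ∧ (f : LaurentSeries K) = w x := by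
    intro x
    obtain ⟨f, hf, hfw⟩ := hwW x x.2
    exact ⟨f, hf, hfw⟩
  choose wS hwS using hch
  set e := s.equivFin with he
  refine ⟨s.card, fun i => wS (e.symm i), fun i => (hwS _).1, fun i => ?_, ?_, ?_⟩
  · rw [mem_gaussValSub_iff, (hwS _).2]
    exact hwO _ (e.symm i).2
  · apply Submodule.map_injective_of_injective (valLin_injective (laurentBaseChange K F₀))
    rw [Submodule.map_span, ← hspan]
    congr 1
    ext x
    constructor
    · rintro ⟨_, ⟨i, rfl⟩, rfl⟩
      exact ⟨e.symm i, (e.symm i).2, ((hwS _).2).symm⟩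
    · rintro ⟨m, hm, rfl⟩
      refine ⟨wS ⟨m, hm⟩, ⟨e ⟨m, hm⟩, ?_⟩, (hwS _).2⟩
      simp
  · intro c hc i
    set c' : ℤ → IsLocalRing.ResidueField A :=
      fun m => if hm : m ∈ s then c (e ⟨m, hm⟩) else 0 with hc'
    have hsum : ∑ m ∈ s, algebraMap (IsLocalRing.ResidueField A)
        (LaurentSeries (IsLocalRing.ResidueField A)) (c' m) *
          gaussResFun A (laurentBaseChange K F₀) (w m) = 0 := by
      rw [← hc, ← Finset.sum_coe_sort s, ← Equiv.sum_comp e.symm]
      refine Finset.sum_congr rfl fun j _ => ?_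
      have h1 : c' (e.symm j : ℤ) = c j := by
        simp only [hc']
        rw [dif_pos (e.symm j).2]
        simp
      rw [h1, (hwS _).2]
    have := hind c' hsum (e.symm i) (e.symm i).2
    simp only [hc'] at this
    rw [dif_pos (e.symm i).2] at this
    simpa using this

end Fermat.Agent.GaussInt
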