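/-
Cluster B (helper5): the Gauss ring is stable under automorphisms of the coefficient field that
preserve the valuation ring, and the residue map is equivariant.

* `gaussResFun_coeffMap` -- general form: `σ : K →+* K` with `σ A ⊆ A` inducing `τ` on the residue
  field: `ρ (σ f) = τ (ρ f)` (coefficientwise)
* `gaussRes_inertia` -- INERTIA: `σ ∈ A.inertiaSubgroupIn K₀`, `f ∈ O_v` ⟹ `σ f ∈ O_v` and
  `ρ (σ f) = ρ f`
* `gaussRes_frobenius_coeff` -- FROBENIUS: `A.IsFrobeniusAt σ q` ⟹ the coefficients of `ρ (σ f)` are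
  the `q`-th powers of the coefficients of `ρ f`
-/
import Mathlib
import Fermat.Agent.MUL.Orig.Lib.GaussInt.Basic
import Fermat.Agent.MUL.Orig.S05.H5.Inertia
import Fermat.Prelude.Def_EllipticCurve_FrobeniusTrace
import Fermat.Agent.MUL.Lib.GoodRed.ModularFibres

set_option autoImplicit false

noncomputable section

namespace Fermat.Agent.GaussInt

open ModularCurve HahnSeries

variable {K : Type*} [Field K] {A : ValuationSubring K}
variable {F : IntermediateField K (LaurentSeries K)}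

/-- The restriction to `A` of a ring endomorphism of `K` mapping `A` into itself. -/
def resA (σ : K →+* K) (hσA : ∀ a ∈ A, σ a ∈ A) : A →+* A :=
  (σ.comp A.subtype).codRestrict A (fun a => hσA a a.2)

@[simp] theorem coe_resA (σ : K →+* K) (hσA : ∀ a ∈ A, σ a ∈ A) (a : A) :
    ((resA σ hσA a : A) : K) = σ a := rfl

theorem emb_coeffMap_resA (σ : K →+* K) (hσA : ∀ a ∈ A, σ a ∈ A) (Y : LaurentSeries A) :
    emb A (coeffMap (resA σ hσA) Y) = coeffMap σ (emb A Y) := by
  ext n
  simp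

theorem red_coeffMap_resA (σ : K →+* K) (hσA : ∀ a ∈ A, σ a ∈ A)
    (τ : IsLocalRing.ResidueField A →+* IsLocalRing.ResidueField A)
    (hτ : ∀ a : A, IsLocalRing.residue A (resA σ hσA a) = τ (IsLocalRing.residue A a))
    (Y : LaurentSeries A) :
    red A (coeffMap (resA σ hσA) Y) = coeffMap τ (red A Y) := by
  ext n
  simp [hτ]

theorem IsPres.coeffMap (σ : K →+* K) (hσA : ∀ a ∈ A, σ a ∈ A)
    (τ : IsLocalRing.ResidueField A →+* IsLocalRing.ResidueField A)
    (hτ : ∀ a : A, IsLocalRing.residue A (resA σ hσA a) = τ (IsLocalRing.residue A a))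
    (hF : ∀ y ∈ F, coeffMap σ y ∈ F) {f : LaurentSeries K} {Y₁ Y₂ : LaurentSeries A}
    (h : IsPres A F f Y₁ Y₂) :
    IsPres A F (ModularCurve.coeffMap σ f) (ModularCurve.coeffMap (resA σ hσA) Y₁)
      (ModularCurve.coeffMap (resA σ hσA) Y₂) where
  mem₁ := by
    rw [emb_coeffMap_resA]
    exact hF _ h.mem₁
  mem₂ := by
    rw [emb_coeffMap_resA]
    exact hF _ h.mem₂
  prim := by
    rw [red_coeffMap_resA σ hσA τ hτ]
    intro h0
    apply h.prim
    exact coeffMap_injective_of_injective τ τ.injective (by rw [h0, map_zero])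
  eq := by
    rw [emb_coeffMap_resA, emb_coeffMap_resA, ← map_mul, h.eq]

/-- The Gauss ring is stable under `σ`. -/
theorem coeffMap_mem_gaussSub (σ : K →+* K) (hσA : ∀ a ∈ A, σ a ∈ A)
    (τ : IsLocalRing.ResidueField A →+* IsLocalRing.ResidueField A)
    (hτ : ∀ a : A, IsLocalRing.residue A (resA σ hσA a) = τ (IsLocalRing.residue A a))
    (hF : ∀ y ∈ F, coeffMap σ y ∈ F) {f : LaurentSeries K} (hf : f ∈ gaussSub A F) :
    coeffMap σ f ∈ gaussSub A F := by
  obtain ⟨Y₁, Y₂, h⟩ := hf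
  exact (h.coeffMap σ hσA τ hτ hF).mem_gaussSub

/-- Equivariance of the residue map. -/
theorem gaussResFun_coeffMap (σ : K →+* K) (hσA : ∀ a ∈ A, σ a ∈ A)
    (τ : IsLocalRing.ResidueField A →+* IsLocalRing.ResidueField A)
    (hτ : ∀ a : A, IsLocalRing.residue A (resA σ hσA a) = τ (IsLocalRing.residue A a))
    (hF : ∀ y ∈ F, coeffMap σ y ∈ F) {f : LaurentSeries K} (hf : f ∈ gaussSub A F) :
    gaussResFun A F (coeffMap σ f) = coeffMap τ (gaussResFun A F f) := by
  obtain ⟨Y₁, Y₂, h⟩ := hf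
  rw [gaussResFun_eq (h.coeffMap σ hσA τ hτ hF), gaussResFun_eq h,
    red_coeffMap_resA σ hσA τ hτ, red_coeffMap_resA σ hσA τ hτ, map_div₀]

section Galois

variable {K₀ : Type*} [Field K₀] [Algebra K₀ K]

theorem residue_resA_of_inertia (σ : K ≃ₐ[K₀] K) (hσ : σ ∈ A.inertiaSubgroupIn K₀)
    (hσA : ∀ a ∈ A, (σ : K →+* K) a ∈ A) (a : A) :
    IsLocalRing.residue A (resA (σ : K →+* K) hσA a) =
      RingHom.id (IsLocalRing.ResidueField A) (IsLocalRing.residue A a) := by
  rw [RingHom.id_apply, ← sub_eq_zero, ← map_sub, IsLocalRing.residue_eq_zero_iff,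
    ← ValuationSubring.coe_mem_nonunits_iff]
  exact S05H5.inertiaIn_sub_mem_nonunits A σ hσ a.2

/-- INERTIA: elements of the inertia group preserve the Gauss ring. -/
theorem coeffMap_mem_gaussSub_of_inertia (σ : K ≃ₐ[K₀] K) (hσ : σ ∈ A.inertiaSubgroupIn K₀)
    (hF : ∀ y ∈ F, coeffMap (σ : K →+* K) y ∈ F) {f : LaurentSeries K}
    (hf : f ∈ gaussSub A F) : coeffMap (σ : K →+* K) f ∈ gaussSub A F := by
  have hσA : ∀ a ∈ A, (σ : K →+* K) a ∈ A := fun a ha =>
    (S05H5.inertiaIn_apply_mem_iff A σ hσ).mpr ha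
  exact coeffMap_mem_gaussSub (σ : K →+* K) hσA (RingHom.id _)
    (residue_resA_of_inertia σ hσ hσA) hF hf

/-- INERTIA: elements of the inertia group act trivially on residues. -/
theorem gaussResFun_inertia (σ : K ≃ₐ[K₀] K) (hσ : σ ∈ A.inertiaSubgroupIn K₀)
    (hF : ∀ y ∈ F, coeffMap (σ : K →+* K) y ∈ F) {f : LaurentSeries K}
    (hf : f ∈ gaussSub A F) :
    gaussResFun A F (coeffMap (σ : K →+* K) f) = gaussResFun A F f := by
  have hσA : ∀ a ∈ A, (σ : K →+* K) a ∈ A := fun a ha =>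
    (S05H5.inertiaIn_apply_mem_iff A σ hσ).mpr ha
  have key := gaussResFun_coeffMap (σ : K →+* K) hσA (RingHom.id _)
    (residue_resA_of_inertia σ hσ hσA) hF hf
  rw [key, coeffMap_id]

/-- DECOMPOSITION GROUP: elements of the decomposition group preserve the Gauss ring, and the
residue map is equivariant for the induced action on the residue field. -/
theorem gaussResFun_decomposition (σ : K ≃ₐ[K₀] K) (hσ : σ ∈ A.decompositionSubgroup K₀)
    (hF : ∀ y ∈ F, coeffMap (σ : K →+* K) y ∈ F) {f : LaurentSeries K}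
    (hf : f ∈ gaussSub A F) :
    coeffMap (σ : K →+* K) f ∈ gaussSub A F ∧
      gaussResFun A F (coeffMap (σ : K →+* K) f) =
        coeffMap (MulSemiringAction.toRingHom (A.decompositionSubgroup K₀)
          (IsLocalRing.ResidueField A) ⟨σ, hσ⟩) (gaussResFun A F f) := by
  have hσA : ∀ a ∈ A, (σ : K →+* K) a ∈ A := fun a ha => S05H5.decomp_apply_mem A σ hσ ha
  have hτ : ∀ a : A, IsLocalRing.residue A (resA (σ : K →+* K) hσA a) =
      (MulSemiringAction.toRingHom (A.decompositionSubgroup K₀)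
          (IsLocalRing.ResidueField A) ⟨σ, hσ⟩) (IsLocalRing.residue A a) := fun a => rfl
  exact ⟨coeffMap_mem_gaussSub _ hσA _ hτ hF hf, gaussResFun_coeffMap _ hσA _ hτ hF hf⟩

/-- FROBENIUS: for a Frobenius element `σ` at `A`, the coefficients of `ρ (σ f)` are the `q`-th
powers of the coefficients of `ρ f`. -/
theorem gaussResFun_frobenius_coeff (σ : K ≃ₐ[K₀] K) {q : ℕ} (hσ : A.IsFrobeniusAt σ q)
    (hF : ∀ y ∈ F, coeffMap (σ : K →+* K) y ∈ F) {f : LaurentSeries K}
    (hf : f ∈ gaussSub A F) (n : ℤ) :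
    (gaussResFun A F (coeffMap (σ : K →+* K) f)).coeff n = (gaussResFun A F f).coeff n ^ q := by
  rw [(gaussResFun_decomposition σ hσ.mem_decompositionSubgroup hF hf).2, coeffMap_coeff]
  exact hσ.smul_residue_eq _

end Galois

end Fermat.Agent.GaussInt
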