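/-
Cluster B (helper30): formal part of the FrobPow assembly.

`A` a valuation subring of a field `K` with residue field `k` of characteristic `ℓ`.
For a series `Y` with coefficients in `A`:

* `exists_kronecker_series`: the product `∏_{b<ℓ} Y(ζ^b q)` (`ζ` a primitive `ℓ`-th root of unity of
  `K`) is `W(q^ℓ)` for a series `W` with coefficients in `A` whose reduction is the coefficientwise
  Frobenius twist of the reduction of `Y` (Kronecker congruence, formal form of helper20);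
* `exists_frob_series`: for a Frobenius element `σ` at `A`, `σ Y` reduces to the Frobenius twist of
  `Ȳ` and `(σ⁻¹ Y)^ℓ` reduces to `Ȳ(q^ℓ)`.
-/
import Mathlib
import Fermat.Agent.MUL.Orig.Lib.GaussInt.Galois
import Fermat.Agent.MUL.Orig.Lib.Kronecker.Congruence
import Fermat.Agent.MUL.Orig.Lib.Frobenius.Exists

set_option autoImplicit false
set_option linter.style.haveILetI false

noncomputable section

namespace Fermat.Agent.GaussIntFP

open ModularCurve HahnSeries Fermat.Agent.GaussInt Fermat.Agent.Kronecker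

variable {K : Type*} [Field K] (A : ValuationSubring K)

/-- The residue field of a valuation ring over `ℓ` has characteristic `ℓ`. -/
theorem charP_residue_of_liesOver {ℓ : ℕ} (hℓ : ℓ.Prime) (hA : A.LiesOverPrime ℓ) :
    CharP (IsLocalRing.ResidueField A) ℓ := by
  rw [CharP.charP_iff_prime_eq_zero hℓ]
  have h1 : ((ℓ : A) : K) ∈ A.nonunits := by
    have : ((ℓ : A) : K) = (ℓ : K) := by simp
    rw [this]
    exact hA
  have h2 : (ℓ : A) ∈ IsLocalRing.maximalIdeal A := by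
    rw [IsLocalRing.mem_maximalIdeal]
    exact (ValuationSubring.coe_mem_nonunits_iff).mp h1
  have h3 := (IsLocalRing.residue_eq_zero_iff (ℓ : A)).mpr h2
  rwa [map_natCast] at h3

/-- An element of `K` of finite multiplicative order lies in `A`. -/
theorem mem_of_pow_eq_one {x : K} {n : ℕ} (hn : n ≠ 0) (hx : x ^ n = 1) : x ∈ A := by
  rcases A.mem_or_inv_mem x with h | h
  · exact h
  · have hx0 : x ≠ 0 := by
      rintro rfl
      rw [zero_pow hn] at hx
      exact zero_ne_one hx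
    have h2 : x ^ (n - 1) * x = 1 := by
      rw [← pow_succ, Nat.sub_add_cancel (Nat.one_le_iff_ne_zero.mpr hn), hx]
    have h1 : x = x⁻¹ ^ (n - 1) := by
      rw [inv_pow]
      exact eq_inv_of_mul_eq_one_right h2
    rw [h1]
    exact pow_mem h _

/-- A root of unity of `K`, as a unit of `A`. -/
def rootUnit (ζ : Kˣ) {n : ℕ} (hn : n ≠ 0) (hζ : ζ ^ n = 1) : Aˣ where
  val := ⟨(ζ : K), mem_of_pow_eq_one A hn (by rw [← Units.val_pow_eq_pow_val, hζ, Units.val_one])⟩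
  inv := ⟨((ζ⁻¹ : Kˣ) : K), mem_of_pow_eq_one A hn
    (by rw [← Units.val_pow_eq_pow_val, inv_pow, hζ, inv_one, Units.val_one])⟩
  val_inv := Subtype.ext (by simp)
  inv_val := Subtype.ext (by simp)

@[simp] theorem coe_rootUnit (ζ : Kˣ) {n : ℕ} (hn : n ≠ 0) (hζ : ζ ^ n = 1) :
    (((rootUnit A ζ hn hζ : Aˣ) : A) : K) = (ζ : K) := rfl

theorem map_rootUnit (ζ : Kˣ) {n : ℕ} (hn : n ≠ 0) (hζ : ζ ^ n = 1) :
    Units.map (A.subtype : A →* K) (rootUnit A ζ hn hζ) = ζ :=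
  Units.ext rfl

theorem rootUnit_pow (ζ : Kˣ) {n : ℕ} (hn : n ≠ 0) (hζ : ζ ^ n = 1) :
    rootUnit A ζ hn hζ ^ n = 1 := by
  apply Units.ext
  apply Subtype.ext
  rw [Units.val_pow_eq_pow_val, Units.val_one]
  show (((rootUnit A ζ hn hζ : Aˣ) : A) : K) ^ n = 1
  rw [coe_rootUnit, ← Units.val_pow_eq_pow_val, hζ, Units.val_one]

theorem isPrimitiveRoot_rootUnit (ζ : Kˣ) {n : ℕ} (hn : n ≠ 0) (hζ : IsPrimitiveRoot ζ n) :
    IsPrimitiveRoot (rootUnit A ζ hn hζ.pow_eq_one) n := by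
  refine ⟨rootUnit_pow A ζ hn hζ.pow_eq_one, fun m hm => ?_⟩
  apply hζ.dvd_of_pow_eq_one
  have h := congrArg (Units.map (A.subtype : A →* K)) hm
  rwa [map_pow, map_rootUnit, map_one] at h

theorem emb_scaleL (u : Aˣ) (Y : LaurentSeries A) :
    emb A (scaleL u Y) = scaleL (Units.map (A.subtype : A →* K) u) (emb A Y) :=
  coeffMap_scaleL A.subtype u Y

theorem emb_qExpand (n : ℕ) [NeZero n] (Y : LaurentSeries A) :
    emb A (qExpand A n Y) = qExpand K n (emb A Y) :=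
  coeffMap_qExpand A.subtype n Y

theorem red_qExpand (n : ℕ) [NeZero n] (Y : LaurentSeries A) :
    red A (qExpand A n Y) = qExpand (IsLocalRing.ResidueField A) n (red A Y) :=
  coeffMap_qExpand (IsLocalRing.residue A) n Y

variable (ℓ : ℕ) [Fact ℓ.Prime] [CharP (IsLocalRing.ResidueField A) ℓ]

/-- **Kronecker congruence** for a series with coefficients in `A`. -/
theorem exists_kronecker_series (ζ : Kˣ) (hζ : IsPrimitiveRoot ζ ℓ) (Y : LaurentSeries A) :
    haveI : NeZero ℓ := ⟨(Fact.out : ℓ.Prime).ne_zero⟩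
    ∃ W : LaurentSeries A,
      qExpand K ℓ (emb A W) = ∏ b ∈ Finset.range ℓ, scaleL (ζ ^ b) (emb A Y) ∧
      red A W = coeffMap (frobenius (IsLocalRing.ResidueField A) ℓ) (red A Y) := by
  haveI : NeZero ℓ := ⟨(Fact.out : ℓ.Prime).ne_zero⟩
  have hℓ0 : ℓ ≠ 0 := (Fact.out : ℓ.Prime).ne_zero
  set ζA : Aˣ := rootUnit A ζ hℓ0 hζ.pow_eq_one with hζA
  have hprim : IsPrimitiveRoot ζA ℓ := isPrimitiveRoot_rootUnit A ζ hℓ0 hζ
  obtain ⟨W, hW⟩ := exists_qExpand_eq_of_scaleL_eq ℓ ζA hprim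
    (∏ b ∈ Finset.range ℓ, scaleL (ζA ^ b) Y) (scaleL_prod_scaleL ℓ ζA hprim.pow_eq_one Y)
  refine ⟨W, ?_, ?_⟩
  · rw [← emb_qExpand, hW, map_prod]
    refine Finset.prod_congr rfl fun b _ => ?_
    rw [emb_scaleL, map_pow, map_rootUnit]
  · exact kronecker_formal ℓ (IsLocalRing.residue A) ζA hprim.pow_eq_one Y W hW

section Frobenius

variable {K₀ : Type*} [Field K₀] [Algebra K₀ K]

theorem frob_apply_mem {σ : K ≃ₐ[K₀] K} (hσ : σ ∈ A.decompositionSubgroup K₀) :
    ∀ a ∈ A, (σ : K →+* K) a ∈ A := fun _ ha =>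
  S05H5.decomp_apply_mem A σ hσ ha

/-- For a Frobenius element `σ` at `A`: `σ Y` reduces to the Frobenius twist of `Ȳ` and
`(σ⁻¹ Y)^ℓ` reduces to `Ȳ(q^ℓ)`. -/
theorem exists_frob_series {σ : K ≃ₐ[K₀] K} (hσ : A.IsFrobeniusAt σ ℓ) (Y : LaurentSeries A) :
    haveI : NeZero ℓ := ⟨(Fact.out : ℓ.Prime).ne_zero⟩
    ∃ S Z : LaurentSeries A,
      emb A S = coeffMap (σ : K →+* K) (emb A Y) ∧
      emb A Z = coeffMap ((σ⁻¹ : K ≃ₐ[K₀] K) : K →+* K) (emb A Y) ∧
      red A S = coeffMap (frobenius (IsLocalRing.ResidueField A) ℓ) (red A Y) ∧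
      red A (Z ^ ℓ) = qExpand (IsLocalRing.ResidueField A) ℓ (red A Y) := by
  haveI : NeZero ℓ := ⟨(Fact.out : ℓ.Prime).ne_zero⟩
  have hdec : σ ∈ A.decompositionSubgroup K₀ := hσ.mem_decompositionSubgroup
  have hdec' : σ⁻¹ ∈ A.decompositionSubgroup K₀ := inv_mem hdec
  have hσA := frob_apply_mem A hdec
  have hσA' := frob_apply_mem A hdec'
  have hτ : ∀ a : A, IsLocalRing.residue A (resA (σ : K →+* K) hσA a) =
      frobenius (IsLocalRing.ResidueField A) ℓ (IsLocalRing.residue A a) := by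
    intro a
    rw [frobenius_def]
    exact hσ.smul_residue_eq (IsLocalRing.residue A a)
  set Z := coeffMap (resA ((σ⁻¹ : K ≃ₐ[K₀] K) : K →+* K) hσA') Y with hZ
  have hZY : coeffMap (resA (σ : K →+* K) hσA) Z = Y := by
    ext n
    rw [hZ, coeffMap_coeff, coeffMap_coeff]
    rw [coe_resA, coe_resA]
    show σ (σ⁻¹ ((Y.coeff n : A) : K)) = _
    exact σ.apply_symm_apply _
  refine ⟨coeffMap (resA (σ : K →+* K) hσA) Y, Z, emb_coeffMap_resA _ hσA Y,
    emb_coeffMap_resA _ hσA' Y, red_coeffMap_resA _ hσA _ hτ Y, ?_⟩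
  rw [map_pow, pow_char_eq_qExpand_frobenius ℓ (red A Z),
    ← red_coeffMap_resA (σ : K →+* K) hσA _ hτ Z, hZY]

end Frobenius

end Fermat.Agent.GaussIntFP
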